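import Fermat.Agent.S59.H563.OldC
import Fermat.Agent.S59.H63.OldDescent

/-!
# Row S59, cell NM, leaf NM-OLD — CLOSED (helper563; descent by helper63)

`old563 : NM.OldStatement`, VERBATIM: an eigenclass of level `N q²` away from `S ∪ {q}`, for a
system which occurs in level `N`, is `P₁ z₁ + P₂ z₂ + P₃ z₃` with eigenclasses `z_i` of level `N`
away from `S` (coefficients in any field of characteristic `0`).
-/

set_option autoImplicit false

namespace Fermat.Agent.S59.H563

/-- **NM-OLD.** -/
theorem old563 : Fermat.Agent.S59.NM.OldStatement :=
  Fermat.Agent.S59.H63.oldDescent oldC563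

end Fermat.Agent.S59.H563
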