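import Fermat.Agent.S59.H563.OldSpec
import Fermat.Agent.S29.H642.PeriodHecke
import Fermat.Agent.S41.H863.TransferNatural

/-!
# NM-OLD, Eichler–Shimura transport (helper563): `OldPeriodStatement`, `OldInvolutionStatement`

The period map and the involution `ι` are compatible with the degeneracy maps `r₁, r₂`.
-/

set_option autoImplicit false

open CongruenceSubgroup ModularCurve ModularCurve.Period Matrix.SpecialLinearGroup
open UpperHalfPlane hiding I
open scoped MatrixGroups ModularForm Manifold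

namespace Fermat.Agent.S59.H563

open Fermat.Agent.S59.NM Fermat.Agent.S41.Spec Fermat.Agent.S29.H642

/-- `diag(q, 1) γ = c_δ(γ) diag(q, 1)`. -/
theorem heckeDiag_mul_conjDelta563 (N q : ℕ) (hq : q ≠ 0) (γ : Gamma0 (N * q)) :
    ModularForm.heckeDiagMatrix q * mapGL ℝ (γ : SL(2, ℤ)) =
      mapGL ℝ ((conjDelta N q γ : Gamma0 N) : SL(2, ℤ)) * ModularForm.heckeDiagMatrix q := by
  obtain ⟨k, hk⟩ := (dvd_of_mem_gamma0_mul γ).1
  have hq' : (q : ℤ) ≠ 0 := by exact_mod_cast hq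
  have h10 : ((conjDelta N q γ : Gamma0 N) : SL(2, ℤ)) 1 0 = k := by
    show conjDeltaMatrix q (γ : SL(2, ℤ)) 1 0 = k
    simp [conjDeltaMatrix, hk, Int.mul_ediv_cancel_left _ hq']
  have h00 : ((conjDelta N q γ : Gamma0 N) : SL(2, ℤ)) 0 0 = (γ : SL(2, ℤ)) 0 0 := by
    show conjDeltaMatrix q (γ : SL(2, ℤ)) 0 0 = _
    simp [conjDeltaMatrix]
  have h01 : ((conjDelta N q γ : Gamma0 N) : SL(2, ℤ)) 0 1 = q * (γ : SL(2, ℤ)) 0 1 := by
    show conjDeltaMatrix q (γ : SL(2, ℤ)) 0 1 = _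
    simp [conjDeltaMatrix]
  have h11 : ((conjDelta N q γ : Gamma0 N) : SL(2, ℤ)) 1 1 = (γ : SL(2, ℤ)) 1 1 := by
    show conjDeltaMatrix q (γ : SL(2, ℤ)) 1 1 = _
    simp [conjDeltaMatrix]
  ext i j
  fin_cases i <;> fin_cases j <;>
    simp [hq, Matrix.mul_apply, Fin.sum_univ_two, h00, h01, h10, h11, hk]
  all_goals ring

/-- **OLD-PER.** -/
theorem oldPeriod563 : OldPeriodStatement := by
  intro N q _ _ f g
  have hq0 : q ≠ 0 := NeZero.ne q
  haveI : NeZero (N * q) := ⟨Nat.mul_ne_zero (NeZero.ne N) hq0⟩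
  obtain ⟨F, hF⟩ := Fermat.Agent.S21.H381.exists_hasEquivariantPrimitive f
  obtain ⟨G, hG⟩ := Fermat.Agent.S21.H381.exists_hasEquivariantPrimitive g
  constructor
  · intro hgf
    refine AddMonoidHom.ext fun γ' => ?_
    obtain ⟨γ, rfl⟩ : ∃ γ : Gamma0 (N * q), Additive.ofMul γ = γ' := ⟨Additive.toMul γ', rfl⟩
    have hFd : ∀ τ : ℍ, HasDerivAt (F ∘ ofComplex) (g τ) ↑τ := fun τ => by
      rw [hgf τ]; exact hF.1 τ
    have hconst := Fermat.Agent.S21.H381.sub_const_of_hasDerivAt hG.1 hFd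
      ((γ : SL(2, ℤ)) • UpperHalfPlane.I) UpperHalfPlane.I
    rw [Fermat.Agent.S21.H381.periodMap_apply hG γ UpperHalfPlane.I]
    show _ = periodMap N f (Additive.ofMul (incl N q γ))
    rw [Fermat.Agent.S21.H381.periodMap_apply hF (incl N q γ) UpperHalfPlane.I]
    show _ = F ((γ : SL(2, ℤ)) • UpperHalfPlane.I) - F UpperHalfPlane.I
    linear_combination hconst
  · intro hgf
    refine AddMonoidHom.ext fun γ' => ?_
    obtain ⟨γ, rfl⟩ : ∃ γ : Gamma0 (N * q), Additive.ofMul γ = γ' := ⟨Additive.toMul γ', rfl⟩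
    have hqC : (q : ℂ) ≠ 0 := Nat.cast_ne_zero.mpr hq0
    -- the explicit primitive of `q • g`
    set FT : ℍ → ℂ := fun w => F (ModularForm.heckeDiagMatrix q • w) with hFT
    have hpos : 0 < ((ModularForm.heckeDiagMatrix q : GL (Fin 2) ℝ) :
        Matrix (Fin 2) (Fin 2) ℝ).det := by
      have := ModularForm.det_heckeDiagMatrix_pos q
      rwa [Matrix.GeneralLinearGroup.val_det_apply] at this
    have hFTd : ∀ τ : ℍ, HasDerivAt (FT ∘ ofComplex) ((q : ℂ) * g τ) ↑τ := by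
      intro τ
      have h1 := hasDerivAt_comp_smul_GL hF.1 (ModularForm.heckeDiagMatrix q) hpos τ
      rw [ModularForm.slash_heckeDiagMatrix_apply 2 hq0] at h1
      rw [hgf τ]
      have e : ((q : ℂ) ^ ((2 : ℤ) - 1)) = (q : ℂ) := by norm_num
      rw [e] at h1
      exact h1
    have hGd : ∀ τ : ℍ, HasDerivAt (((q : ℂ) • G) ∘ ofComplex) ((q : ℂ) * g τ) ↑τ := by
      intro τ
      have := (hG.1 τ).const_smul (q : ℂ)
      exact this
    have hconst := Fermat.Agent.S21.H381.sub_const_of_hasDerivAt hGd hFTd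
      ((γ : SL(2, ℤ)) • UpperHalfPlane.I) UpperHalfPlane.I
    rw [AddMonoidHom.smul_apply, Fermat.Agent.S21.H381.periodMap_apply hG γ UpperHalfPlane.I]
    show _ = periodMap N f (Additive.ofMul (conjDelta N q γ))
    rw [Fermat.Agent.S21.H381.periodMap_apply hF (conjDelta N q γ)
      (ModularForm.heckeDiagMatrix q • UpperHalfPlane.I)]
    have e1 : ModularForm.heckeDiagMatrix q • ((γ : SL(2, ℤ)) • UpperHalfPlane.I)
        = ((conjDelta N q γ : Gamma0 N) : SL(2, ℤ)) •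
            (ModularForm.heckeDiagMatrix q • UpperHalfPlane.I) := by
      show ModularForm.heckeDiagMatrix q • (mapGL ℝ (γ : SL(2, ℤ)) • UpperHalfPlane.I)
        = mapGL ℝ ((conjDelta N q γ : Gamma0 N) : SL(2, ℤ)) •
            (ModularForm.heckeDiagMatrix q • UpperHalfPlane.I)
      rw [← mul_smul, ← mul_smul, heckeDiag_mul_conjDelta563 N q hq0 γ]
    rw [← e1]
    simp only [Pi.smul_apply, smul_eq_mul, hFT] at hconst ⊢
    linear_combination hconst

/-- **OLD-INV.** -/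
theorem oldInvolution563 : OldInvolutionStatement := by
  intro N q φ
  refine ⟨?_, ?_⟩
  · refine AddMonoidHom.ext fun γ' => ?_
    obtain ⟨γ, rfl⟩ : ∃ γ : Gamma0 (N * q), Additive.ofMul γ = γ' := ⟨Additive.toMul γ', rfl⟩
    show φ (Additive.ofMul (incl N q (jConjGamma0 (N * q) γ))) =
      φ (Additive.ofMul (jConjGamma0 N (incl N q γ)))
    rw [Fermat.Agent.S41.H863.incl_jConj]
  · refine AddMonoidHom.ext fun γ' => ?_
    obtain ⟨γ, rfl⟩ : ∃ γ : Gamma0 (N * q), Additive.ofMul γ = γ' := ⟨Additive.toMul γ', rfl⟩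
    show φ (Additive.ofMul (conjDelta N q (jConjGamma0 (N * q) γ))) =
      φ (Additive.ofMul (jConjGamma0 N (conjDelta N q γ)))
    rw [Fermat.Agent.S41.H863.conjDelta_jConj]

end Fermat.Agent.S59.H563
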