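import Fermat.Agent.S59.H563.OldForms
import Fermat.Agent.S59.H563.OldPer
import Fermat.Agent.Ribet.H883.Char0

/-!
# NM-OLD over `ℂ` (helper563): `OldCStatement`

Eichler–Shimura (S21) moves eigenclasses to pairs of cusp forms; `oldForms563` decomposes the
forms; `oldPeriod563`, `oldInvolution563` move the decomposition back.
-/

set_option autoImplicit false

open CongruenceSubgroup ModularCurve ModularCurve.Period ModularFormClass
open scoped MatrixGroups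

namespace Fermat.Agent.S59.H563

open Fermat.Agent.S59.NM Fermat.Agent.S41.Spec Fermat.Agent.S29.H642
open Fermat.Agent.Lib.Newform Fermat.Agent.Ribet.H883

theorem r₁_add563 (N q : ℕ) (φ ψ : Additive (Gamma0 N) →+ ℂ) :
    r₁ N q (φ + ψ) = r₁ N q φ + r₁ N q ψ := rfl

theorem r₁_sub563 (N q : ℕ) (φ ψ : Additive (Gamma0 N) →+ ℂ) :
    r₁ N q (φ - ψ) = r₁ N q φ - r₁ N q ψ := rfl

theorem r₁_smul563 (N q : ℕ) (c : ℂ) (φ : Additive (Gamma0 N) →+ ℂ) :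
    r₁ N q (c • φ) = c • r₁ N q φ := rfl

theorem r₂_add563 (N q : ℕ) (φ ψ : Additive (Gamma0 N) →+ ℂ) :
    r₂ N q (φ + ψ) = r₂ N q φ + r₂ N q ψ := rfl

theorem r₂_sub563 (N q : ℕ) (φ ψ : Additive (Gamma0 N) →+ ℂ) :
    r₂ N q (φ - ψ) = r₂ N q φ - r₂ N q ψ := rfl

theorem r₂_smul563 (N q : ℕ) (c : ℂ) (φ : Additive (Gamma0 N) →+ ℂ) :
    r₂ N q (c • φ) = c • r₂ N q φ := rfl

section

variable {N q : ℕ} [NeZero N] [NeZero q]

/-- `P(f at level N q) = r₁ P(f)`. -/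
theorem periodMap_levelIncl563 (f : CuspForm (Gamma0 N) 2) :
    periodMap (N * q) (H863.levelIncl (Dvd.intro q rfl) f) = r₁ N q (periodMap N f) :=
  (oldPeriod563 N q f (H863.levelIncl (Dvd.intro q rfl) f)).1 (fun _ => rfl)

/-- `P(f(q τ)) = r₂ P(q⁻¹ f)`. -/
theorem periodMap_degen563 (f : CuspForm (Gamma0 N) 2) :
    periodMap (N * q) (H863.degen q f) = r₂ N q (periodMap N ((q : ℂ)⁻¹ • f)) := by
  have hq : (q : ℂ) ≠ 0 := Nat.cast_ne_zero.mpr (NeZero.ne q)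
  have h := (oldPeriod563 N q f (H863.degen q f)).2 (fun τ => H863.degen_apply q f τ)
  rw [Fermat.Agent.S21.H381.periodMap_smul, r₂_smul563, ← h, smul_smul, inv_mul_cancel₀ hq,
    one_smul]

theorem periodHomPair_levelIncl563 (f₁ f₂ : CuspForm (Gamma0 N) 2) :
    haveI : NeZero (N * q) := ⟨Nat.mul_ne_zero (NeZero.ne N) (NeZero.ne q)⟩
    periodHomPair (N * q) (H863.levelIncl (Dvd.intro q rfl) f₁,
        H863.levelIncl (Dvd.intro q rfl) f₂) = r₁ N q (periodHomPair N (f₁, f₂)) := by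
  haveI : NeZero (N * q) := ⟨Nat.mul_ne_zero (NeZero.ne N) (NeZero.ne q)⟩
  rw [Fermat.Agent.S21.H381.periodHomPair_apply, Fermat.Agent.S21.H381.periodHomPair_apply,
    periodMap_levelIncl563, periodMap_levelIncl563, r₁_add563, r₁_add563, r₁_sub563,
    (oldInvolution563 N q _).1, (oldInvolution563 N q _).1]

theorem periodHomPair_degen563 (f₁ f₂ : CuspForm (Gamma0 N) 2) :
    haveI : NeZero (N * q) := ⟨Nat.mul_ne_zero (NeZero.ne N) (NeZero.ne q)⟩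
    periodHomPair (N * q) (H863.degen q f₁, H863.degen q f₂) =
      r₂ N q (periodHomPair N ((q : ℂ)⁻¹ • f₁, (q : ℂ)⁻¹ • f₂)) := by
  haveI : NeZero (N * q) := ⟨Nat.mul_ne_zero (NeZero.ne N) (NeZero.ne q)⟩
  rw [Fermat.Agent.S21.H381.periodHomPair_apply, Fermat.Agent.S21.H381.periodHomPair_apply,
    periodMap_degen563, periodMap_degen563, r₂_add563, r₂_add563, r₂_sub563,
    (oldInvolution563 N q _).2, (oldInvolution563 N q _).2]

end

/-- A homomorphism to `ℂ` kills the elements of finite order. -/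
theorem map_eq_zero_of_isOfFinOrder563 {n : ℕ} (φ : Additive (Gamma0 n) →+ ℂ) (γ : Gamma0 n)
    (hγ : IsOfFinOrder γ) : φ (Additive.ofMul γ) = 0 := by
  obtain ⟨m, hm, hγm⟩ := isOfFinOrder_iff_pow_eq_one.mp hγ
  have h1 : φ (Additive.ofMul (γ ^ m)) = m • φ (Additive.ofMul γ) := by
    rw [ofMul_pow, map_nsmul]
  rw [hγm] at h1
  have h2 : φ (Additive.ofMul (1 : Gamma0 n)) = 0 := map_zero φ
  rw [h2] at h1
  have h3 : (m : ℂ) * φ (Additive.ofMul γ) = 0 := by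
    rw [← nsmul_eq_mul]; exact h1.symm
  rcases mul_eq_zero.mp h3 with h4 | h4
  · exact absurd (Nat.cast_eq_zero.mp h4) hm.ne'
  · exact h4

/-- The class of a pair of eigenforms is an eigenclass. -/
theorem isEigenclass_periodHomPair563 {N : ℕ} [NeZero N] (S : Finset ℕ) (a : ℕ → ℂ)
    (f₁ f₂ : CuspForm (Gamma0 N) 2)
    (h₁ : ∀ (l : ℕ) (hl : l.Prime) (hlN : ¬ l ∣ N), l ∉ S →
      CuspForm.heckeTLin 2 hl hlN f₁ = a l • f₁)
    (h₂ : ∀ (l : ℕ) (hl : l.Prime) (hlN : ¬ l ∣ N), l ∉ S →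
      CuspForm.heckeTLin 2 hl hlN f₂ = a l • f₂) :
    IsEigenclass N S a (periodHomPair N (f₁, f₂)) := by
  refine ⟨⟨?_, fun γ hγ => map_eq_zero_of_isOfFinOrder563 _ γ hγ⟩, ?_⟩
  · exact Fermat.Agent.S21.H381.range_periodHomPair_le (LinearMap.mem_range_self _ _)
  · intro l _ hl hlS
    have hlp : l.Prime := Fact.out
    rw [heckeTransfer_periodHomPair hlp hl f₁ f₂, h₁ l hlp hl hlS, h₂ l hlp hl hlS,
      ← Prod.smul_mk, map_smul]

/-- Eigenclasses over `ℂ` come from pairs of eigenforms. -/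
theorem exists_pair_of_isEigenclass563 {M : ℕ} [NeZero M] (S : Finset ℕ) (a : ℕ → ℂ)
    (y : Additive (Gamma0 M) →+ ℂ) (hy : IsEigenclass M S a y) :
    ∃ F₁ F₂ : CuspForm (Gamma0 M) 2, periodHomPair M (F₁, F₂) = y ∧
      (∀ (l : ℕ) (hl : l.Prime) (hlN : ¬ l ∣ M), l ∉ S →
        CuspForm.heckeTLin 2 hl hlN F₁ = a l • F₁) ∧
      (∀ (l : ℕ) (hl : l.Prime) (hlN : ¬ l ∣ M), l ∉ S →
        CuspForm.heckeTLin 2 hl hlN F₂ = a l • F₂) := by
  obtain ⟨hinj, hrange⟩ := Fermat.Agent.S21.main M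
  have hyr : y ∈ LinearMap.range (periodHomPair M) := by rw [hrange]; exact hy.1.1
  obtain ⟨⟨F₁, F₂⟩, hpair⟩ := hyr
  have eig : ∀ (l : ℕ) (hl : l.Prime) (hlM : ¬ l ∣ M), l ∉ S →
      CuspForm.heckeTLin 2 hl hlM F₁ = a l • F₁ ∧ CuspForm.heckeTLin 2 hl hlM F₂ = a l • F₂ := by
    intro l hl hlM hlS
    haveI : Fact l.Prime := ⟨hl⟩
    have hTl := hy.2 l hlM hlS
    have e : periodHomPair M
        (CuspForm.heckeTLin 2 hl hlM F₁, CuspForm.heckeTLin 2 hl hlM F₂) =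
        periodHomPair M (a l • (F₁, F₂)) := by
      rw [← heckeTransfer_periodHomPair hl hlM F₁ F₂, hpair, hTl, map_smul, hpair]
    have := hinj e
    rw [Prod.smul_mk, Prod.mk.injEq] at this
    exact this
  exact ⟨F₁, F₂, hpair, fun l hl hlM hlS => (eig l hl hlM hlS).1,
    fun l hl hlM hlS => (eig l hl hlM hlS).2⟩

/-- **OLD over `ℂ`.** -/
theorem oldC563 : OldCStatement := by
  intro N q hN hq hqN S hqS hNS a ⟨x, hx0, hx⟩ y hy
  haveI : NeZero N := ⟨hN⟩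
  haveI : NeZero q := ⟨hq.ne_zero⟩
  haveI : NeZero (N * q) := ⟨Nat.mul_ne_zero hN hq.ne_zero⟩
  haveI : NeZero (N * q * q) := ⟨Nat.mul_ne_zero (Nat.mul_ne_zero hN hq.ne_zero) hq.ne_zero⟩
  -- the system occurs in level `N`
  obtain ⟨G₁, G₂, hG, hG₁, hG₂⟩ := exists_pair_of_isEigenclass563 S a x hx
  have hocc : ∃ G : CuspForm (Gamma0 N) 2, G ≠ 0 ∧
      ∀ (l : ℕ) (hl : l.Prime) (hlN : ¬ l ∣ N), l ∉ S →
        CuspForm.heckeTLin 2 hl hlN G = a l • G := by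
    by_cases h1 : G₁ = 0
    · refine ⟨G₂, ?_, hG₂⟩
      rintro rfl
      apply hx0
      rw [← hG, h1]
      exact map_zero _
    · exact ⟨G₁, h1, hG₁⟩
  -- the forms of level `N q²`
  obtain ⟨F₁, F₂, hF, hF₁, hF₂⟩ := exists_pair_of_isEigenclass563 (insert q S) a y hy
  obtain ⟨u₁, u₂, u₃, hu₁, hu₂, hu₃, hFu⟩ := oldForms563 N q hq hqN S hqS hNS a hocc F₁ hF₁
  obtain ⟨v₁, v₂, v₃, hv₁, hv₂, hv₃, hFv⟩ := oldForms563 N q hq hqN S hqS hNS a hocc F₂ hF₂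
  have hqC : (q : ℂ) ≠ 0 := Nat.cast_ne_zero.mpr hq.ne_zero
  -- the decomposition of the forms, as forms of level `N q²`
  have dec : ∀ (F : CuspForm (Gamma0 (N * q * q)) 2) (w₁ w₂ w₃ : CuspForm (Gamma0 N) 2),
      (∀ τ : UpperHalfPlane, F τ = w₁ τ + w₂ (ModularForm.heckeDiagMatrix q • τ) +
        w₃ (ModularForm.heckeDiagMatrix q • (ModularForm.heckeDiagMatrix q • τ))) →
      F = H863.levelIncl (Dvd.intro q rfl) (H863.levelIncl (Dvd.intro q rfl) w₁) +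
        H863.levelIncl (Dvd.intro q rfl) (H863.degen q w₂) +
        H863.degen q (H863.degen q w₃) := by
    intro F w₁ w₂ w₃ h
    apply DFunLike.coe_injective
    funext τ
    rw [h τ]
    simp only [FunLike.coe_add, Pi.add_apply, H863.coe_levelIncl, H863.degen_apply]
  have hsm : ∀ (c : ℂ) (w : CuspForm (Gamma0 N) 2),
      (∀ (l : ℕ) (hl : l.Prime) (hlN : ¬ l ∣ N), l ∉ S →
        CuspForm.heckeTLin 2 hl hlN w = a l • w) →
      ∀ (l : ℕ) (hl : l.Prime) (hlN : ¬ l ∣ N), l ∉ S →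
        CuspForm.heckeTLin 2 hl hlN (c • w) = a l • (c • w) := by
    intro c w hw l hl hlN hlS
    rw [map_smul, hw l hl hlN hlS, smul_comm]
  refine ⟨periodHomPair N (u₁, v₁),
    periodHomPair N ((q : ℂ)⁻¹ • u₂, (q : ℂ)⁻¹ • v₂),
    periodHomPair N ((q : ℂ)⁻¹ • ((q : ℂ)⁻¹ • u₃), (q : ℂ)⁻¹ • ((q : ℂ)⁻¹ • v₃)),
    isEigenclass_periodHomPair563 S a _ _ hu₁ hv₁,
    isEigenclass_periodHomPair563 S a _ _ (hsm _ _ hu₂) (hsm _ _ hv₂),
    isEigenclass_periodHomPair563 S a _ _ (hsm _ _ (hsm _ _ hu₃)) (hsm _ _ (hsm _ _ hv₃)), ?_⟩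
  have t1 : P₁ N q (periodHomPair N (u₁, v₁)) =
      periodHomPair (N * q * q)
        (H863.levelIncl (Dvd.intro q rfl) (H863.levelIncl (Dvd.intro q rfl) u₁),
          H863.levelIncl (Dvd.intro q rfl) (H863.levelIncl (Dvd.intro q rfl) v₁)) := by
    unfold P₁
    rw [← periodHomPair_levelIncl563 (N := N) (q := q) u₁ v₁,
      ← periodHomPair_levelIncl563 (N := N * q) (q := q)]
  have t2 : P₂ N q (periodHomPair N ((q : ℂ)⁻¹ • u₂, (q : ℂ)⁻¹ • v₂)) =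
      periodHomPair (N * q * q)
        (H863.levelIncl (Dvd.intro q rfl) (H863.degen q u₂),
          H863.levelIncl (Dvd.intro q rfl) (H863.degen q v₂)) := by
    unfold P₂
    rw [← periodHomPair_degen563 (N := N) (q := q) u₂ v₂,
      ← periodHomPair_levelIncl563 (N := N * q) (q := q)]
  have t3 : P₃ N q (periodHomPair N
        ((q : ℂ)⁻¹ • ((q : ℂ)⁻¹ • u₃), (q : ℂ)⁻¹ • ((q : ℂ)⁻¹ • v₃))) =
      periodHomPair (N * q * q)
        (H863.degen q (H863.degen q u₃), H863.degen q (H863.degen q v₃)) := by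
    unfold P₃
    rw [← periodHomPair_degen563 (N := N) (q := q) ((q : ℂ)⁻¹ • u₃) ((q : ℂ)⁻¹ • v₃),
      map_smul, map_smul, ← periodHomPair_degen563 (N := N * q) (q := q)]
  have hsplit : ∀ A₁ B₁ C₁ A₂ B₂ C₂ : CuspForm (Gamma0 (N * q * q)) 2,
      periodHomPair (N * q * q) (A₁ + B₁ + C₁, A₂ + B₂ + C₂) =
        periodHomPair (N * q * q) (A₁, A₂) + periodHomPair (N * q * q) (B₁, B₂) +
          periodHomPair (N * q * q) (C₁, C₂) := by
    intro A₁ B₁ C₁ A₂ B₂ C₂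
    have e : ((A₁ + B₁ + C₁, A₂ + B₂ + C₂) :
        CuspForm (Gamma0 (N * q * q)) 2 × CuspForm (Gamma0 (N * q * q)) 2) =
        (A₁, A₂) + (B₁, B₂) + (C₁, C₂) := rfl
    rw [e, map_add, map_add]
  rw [← hF, dec F₁ u₁ u₂ u₃ hFu, dec F₂ v₁ v₂ v₃ hFv, t1, t2, t3, hsplit]

end Fermat.Agent.S59.H563
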