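import Mathlib

set_option autoImplicit false

namespace Fermat.Agent.S59.H563

open Module

/-- Single operator: if `S` is semisimple at `0` on `V` and `K` is `S`-stable, every `x ∈ K`
is `k₀ + S k₁` with `k₀ ∈ K`, `S k₀ = 0`, `k₁ ∈ K`. -/
theorem exists_ker_add_range563 {V : Type*} [AddCommGroup V] [Module ℂ V] [FiniteDimensional ℂ V]
    (S : Module.End ℂ V) (hss : ∀ v, S (S v) = 0 → S v = 0)
    (K : Submodule ℂ V) (hK : ∀ v ∈ K, S v ∈ K) (x : V) (hx : x ∈ K) :
    ∃ k₀ ∈ K, ∃ k₁ ∈ K, S k₀ = 0 ∧ x = k₀ + S k₁ := by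
  let Sr : Module.End ℂ K := S.restrict hK
  have hdisj : Disjoint (LinearMap.ker Sr) (LinearMap.range Sr) := by
    rw [Submodule.disjoint_def]
    rintro y hy ⟨z, rfl⟩
    rw [LinearMap.mem_ker] at hy
    have h1 : S (S (z : V)) = 0 := by
      have := congrArg Subtype.val hy
      simpa [Sr] using this
    have h2 := hss _ h1
    apply Subtype.ext
    simpa [Sr] using h2
  have hdim : finrank ℂ (LinearMap.ker Sr) + finrank ℂ (LinearMap.range Sr) = finrank ℂ K := by
    rw [add_comm]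
    exact LinearMap.finrank_range_add_finrank_ker Sr
  have htop : LinearMap.ker Sr ⊔ LinearMap.range Sr = ⊤ :=
    Submodule.eq_top_of_disjoint _ _ hdim.ge hdisj
  have hmem : (⟨x, hx⟩ : K) ∈ LinearMap.ker Sr ⊔ LinearMap.range Sr := by
    rw [htop]; exact Submodule.mem_top
  obtain ⟨y, hy, z, ⟨w, rfl⟩, hyz⟩ := Submodule.mem_sup.mp hmem
  refine ⟨y, y.2, w, w.2, ?_, ?_⟩
  · have := congrArg Subtype.val (LinearMap.mem_ker.mp hy)
    simpa [Sr] using this
  · have := congrArg Subtype.val hyz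
    simpa [Sr] using this.symm

theorem lift_aux563 {V W : Type*} [AddCommGroup V] [Module ℂ V] [FiniteDimensional ℂ V]
    [AddCommGroup W] [Module ℂ W] {J : Type*}
    (S : J → Module.End ℂ V) (Φ : V →ₗ[ℂ] W)
    (hcomm : ∀ i j, Commute (S i) (S j)) (a : J → ℂ)
    (hker : ∀ j v, Φ v = 0 → Φ (S j v) = 0)
    (hss : ∀ j v, S j (S j v - a j • v) = a j • (S j v - a j • v) → S j v = a j • v) :
    ∀ (d : ℕ) (U : Submodule ℂ V), finrank ℂ U = d → (∀ j, ∀ u ∈ U, S j u ∈ U) →
      (∀ j, ∀ u ∈ U, Φ (S j u - a j • u) = 0) →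
      ∀ u ∈ U, ∃ e ∈ U, (∀ j, S j e = a j • e) ∧ Φ e = Φ u := by
  intro d
  induction d using Nat.strong_induction_on with
  | _ d ih =>
    intro U hd hU hΦ u hu
    by_cases hall : ∀ j, ∀ u ∈ U, S j u = a j • u
    · exact ⟨u, hu, fun j => hall j u hu, rfl⟩
    · push Not at hall
      obtain ⟨j₀, w, hwU, hw⟩ := hall
      set R : Module.End ℂ V := S j₀ - a j₀ • (1 : Module.End ℂ V) with hR
      have hRapp : ∀ v, R v = S j₀ v - a j₀ • v := fun v => by simp [hR]
      have hRcomm : ∀ j v, R (S j v) = S j (R v) := by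
        intro j v
        have := congrArg (fun f : Module.End ℂ V => f v) (hcomm j₀ j).eq
        simp only [Module.End.mul_apply] at this
        rw [hRapp, hRapp, this, map_sub, map_smul]
      have hRss : ∀ v, R (R v) = 0 → R v = 0 := by
        intro v hv
        have h1 : S j₀ (S j₀ v - a j₀ • v) = a j₀ • (S j₀ v - a j₀ • v) := by
          rw [hRapp, hRapp] at hv
          exact sub_eq_zero.mp hv
        rw [hRapp, hss j₀ v h1, sub_self]
      -- the kernel of `Φ` inside `U`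
      set K : Submodule ℂ V := U ⊓ LinearMap.ker Φ with hKdef
      have hKS : ∀ v ∈ K, R v ∈ K := by
        intro v hv
        refine ⟨?_, ?_⟩
        · rw [hRapp]
          exact U.sub_mem (hU j₀ v hv.1) (U.smul_mem _ hv.1)
        · show R v ∈ LinearMap.ker Φ
          rw [LinearMap.mem_ker, hRapp, map_sub, map_smul,
            hker j₀ v (LinearMap.mem_ker.mp hv.2), LinearMap.mem_ker.mp hv.2]
          simp
      have hRuK : R u ∈ K := by
        refine ⟨?_, ?_⟩
        · rw [hRapp]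
          exact U.sub_mem (hU j₀ u hu) (U.smul_mem _ hu)
        · show R u ∈ LinearMap.ker Φ
          rw [LinearMap.mem_ker, hRapp]
          exact hΦ j₀ u hu
      obtain ⟨k₀, hk₀, k₁, hk₁, hRk₀, hsum⟩ := exists_ker_add_range563 R hRss K hKS (R u) hRuK
      -- `u₁ = u - k₁`
      have hu₁U : u - k₁ ∈ U := U.sub_mem hu hk₁.1
      have hRu₁ : R (u - k₁) = 0 := by
        apply hRss
        rw [map_sub, hsum, add_sub_cancel_right, hRk₀]
      have hΦu₁ : Φ (u - k₁) = Φ u := by
        rw [map_sub, LinearMap.mem_ker.mp hk₁.2, sub_zero]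
      set U₁ : Submodule ℂ V := U ⊓ LinearMap.ker R with hU₁
      have hlt : finrank ℂ U₁ < finrank ℂ U := by
        apply Submodule.finrank_lt_finrank_of_lt
        refine lt_of_le_of_ne inf_le_left ?_
        intro heq
        have hw' : w ∈ U₁ := by rw [heq]; exact hwU
        have : R w = 0 := LinearMap.mem_ker.mp hw'.2
        rw [hRapp] at this
        exact hw (sub_eq_zero.mp this)
      have hU₁S : ∀ j, ∀ v ∈ U₁, S j v ∈ U₁ := by
        intro j v hv
        refine ⟨hU j v hv.1, ?_⟩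
        show S j v ∈ LinearMap.ker R
        rw [LinearMap.mem_ker, hRcomm, LinearMap.mem_ker.mp hv.2, map_zero]
      obtain ⟨e, he, heig, hΦe⟩ := ih (finrank ℂ U₁) (hd ▸ hlt) U₁ rfl hU₁S
        (fun j v hv => hΦ j v hv.1) (u - k₁) ⟨hu₁U, LinearMap.mem_ker.mpr hRu₁⟩
      exact ⟨e, he.1, heig, hΦe.trans hΦu₁⟩

/-- **OLD-LIFT**. -/
theorem oldLift_core563 {V W : Type*} [AddCommGroup V] [Module ℂ V] [FiniteDimensional ℂ V]
    [AddCommGroup W] [Module ℂ W] {J : Type*}
    (S : J → Module.End ℂ V) (T : J → Module.End ℂ W) (Φ : V →ₗ[ℂ] W)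
    (hcomm : ∀ i j, Commute (S i) (S j)) (hequiv : ∀ j v, Φ (S j v) = T j (Φ v))
    (a : J → ℂ)
    (hss : ∀ j v, S j (S j v - a j • v) = a j • (S j v - a j • v) → S j v = a j • v)
    (v : V) (hv : ∀ j, T j (Φ v) = a j • Φ v) :
    ∃ e : V, (∀ j, S j e = a j • e) ∧ Φ e = Φ v := by
  -- `U = Φ⁻¹(eigenspace)`
  let U : Submodule ℂ V :=
    { carrier := {u | ∀ j, T j (Φ u) = a j • Φ u}
      add_mem' := by
        intro x y hx hy j
        rw [map_add, map_add, hx j, hy j, smul_add]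
      zero_mem' := by
        intro j
        simp
      smul_mem' := by
        intro c x hx j
        rw [map_smul, map_smul, hx j, smul_comm] }
  have hUS : ∀ j, ∀ u ∈ U, S j u ∈ U := by
    intro j u hu i
    rw [hequiv, hu j, map_smul, hu i, smul_comm]
  have hΦ : ∀ j, ∀ u ∈ U, Φ (S j u - a j • u) = 0 := by
    intro j u hu
    rw [map_sub, map_smul, hequiv, hu j, sub_self]
  have hker : ∀ j v, Φ v = 0 → Φ (S j v) = 0 := by
    intro j v hv0
    rw [hequiv, hv0, map_zero]
  obtain ⟨e, -, heig, hΦe⟩ := lift_aux563 S Φ hcomm a hker hss (finrank ℂ U) U rfl hUS hΦ v hv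
  exact ⟨e, heig, hΦe⟩

end Fermat.Agent.S59.H563
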