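import Fermat.Agent.S59.H563.OldSS
import Fermat.Agent.S59.H563.OldLiftCore
import Fermat.Agent.Lib.Newform.H443.MultOne
import Fermat.Agent.Lib.Newform.H958.X.Final
import Fermat.Agent.Lib.Newform.H863.GoodEigen
import Fermat.Agent.Lib.Newform.H743.SpecMainD

/-!
# NM-OLD, forms side (helper563): structure of the good eigenspaces

`f₀` a Prelude-newform of level `N₀`, `a l = a_l(f₀)` for the primes `l ∉ S'` (`S'` finite).
For every level `C` all of whose primes are in `S'`, the space of the cusp forms of level `C`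
which are eigenvectors of the `T_l`, `l ∉ S'`, with eigenvalues `a l`, is contained in the span
of the forms `f₀(d τ)`, `d N₀ ∣ C`  (`struct563`).

Proof: induction on `C`; `crossLevel` (no form if `N₀ ∤ C`), the main lemma in `D`-form
(`h - a₁(h) f₀` is old), semisimplicity (`OldSS`) and the lifting lemma (`OldLift`).
-/

set_option autoImplicit false

open CongruenceSubgroup ModularFormClass ModularForm UpperHalfPlane

namespace Fermat.Agent.S59.H563

open Fermat.Agent.Lib.Newform

/-- A good eigenvector with `a_1 = 0` has `a_n = 0` for all `n` whose prime factors are good. -/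
theorem qCoeff_eq_zero_of_good563 {C : ℕ} (h : CuspForm (Gamma0 C) 2) (a : ℕ → ℂ)
    (P : ℕ → Prop) (heig : ∀ ℓ : ℕ, ℓ.Prime → P ℓ → heckeT 2 ℓ ⇑h = a ℓ • ⇑h)
    (h1 : qCoeff ⇑h 1 = 0) :
    ∀ n : ℕ, (∀ ℓ : ℕ, ℓ.Prime → ℓ ∣ n → P ℓ) → qCoeff ⇑h n = 0 := by
  intro n
  induction n using Nat.strong_induction_on with
  | _ n ih =>
    intro hgood
    rcases Nat.eq_zero_or_pos n with rfl | hn
    · exact H683.qCoeff_zero_cusp 2 h
    rcases Nat.eq_or_lt_of_le (Nat.succ_le_of_lt hn) with h' | h'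
    · rw [← h']; exact h1
    · have hn1 : n ≠ 1 := by omega
      obtain ⟨p, hp, hpn⟩ := Nat.exists_prime_and_dvd hn1
      have hPp : P p := hgood p hp hpn
      obtain ⟨m, rfl⟩ := hpn
      have hm : 0 < m := Nat.pos_of_ne_zero (by rintro rfl; simp at hn)
      have hlt : m < p * m := by
        have := hp.one_lt
        nlinarith
      have hmgood : ∀ ℓ : ℕ, ℓ.Prime → ℓ ∣ m → P ℓ := fun ℓ hℓ hℓm =>
        hgood ℓ hℓ (hℓm.mul_left p)
      have := H683.coeff_of_heckeT_eq h hp (a p) (heig p hp hPp) m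
      rw [ih m hlt hmgood, mul_zero] at this
      rw [mul_comm p m]
      by_cases hpm : p ∣ m
      · have hdiv : ∀ ℓ : ℕ, ℓ.Prime → ℓ ∣ m / p → P ℓ := fun ℓ hℓ hℓm =>
          hmgood ℓ hℓ (hℓm.trans (Nat.div_dvd_of_dvd hpm))
        rw [if_pos hpm, ih (m / p) (lt_of_le_of_lt (Nat.div_le_self m p) hlt) hdiv, mul_zero,
          add_zero] at this
        exact this
      · rw [if_neg hpm, add_zero] at this
        exact this

theorem heckeDiag_smul_smul563 {d e : ℕ} (hd : d ≠ 0) (he : e ≠ 0) (τ : ℍ) :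
    heckeDiagMatrix d • (heckeDiagMatrix e • τ) = heckeDiagMatrix (d * e) • τ := by
  apply UpperHalfPlane.ext
  rw [coe_heckeDiagMatrix_smul hd, coe_heckeDiagMatrix_smul he,
    coe_heckeDiagMatrix_smul (Nat.mul_ne_zero hd he)]
  push_cast
  ring

section Struct

variable {N₀ : ℕ} (f₀ : CuspForm (Gamma0 N₀) 2)

/-- The span of the forms `f₀(d τ)`, `d N₀ ∣ C`, of level `C`. -/
def oldSpan563 (C : ℕ) : Submodule ℂ (CuspForm (Gamma0 C) 2) :=
  Submodule.span ℂ {g | ∃ d : ℕ, d ≠ 0 ∧ d * N₀ ∣ C ∧ ∀ τ : ℍ, g τ = f₀ (heckeDiagMatrix d • τ)}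

/-- `B_p` maps the span of level `C / p` into the span of level `C`. -/
theorem oldMap_mem_oldSpan563 (C : ℕ) (p : C.primeFactors)
    (g : CuspForm (Gamma0 (C / p.1)) 2) (hg : g ∈ oldSpan563 f₀ (C / p.1)) :
    H443.oldMap C p g ∈ oldSpan563 f₀ C := by
  have hp := Nat.mem_primeFactors.mp p.2
  have hmap : Submodule.map (H443.oldMap C p) (oldSpan563 f₀ (C / p.1)) ≤ oldSpan563 f₀ C := by
    unfold oldSpan563
    rw [Submodule.map_span]
    apply Submodule.span_mono
    rintro _ ⟨g, ⟨d, hd, hdvd, hgd⟩, rfl⟩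
    refine ⟨d * p.1, Nat.mul_ne_zero hd hp.1.ne_zero, ?_, fun τ => ?_⟩
    · have h1 : d * N₀ * p.1 ∣ C / p.1 * p.1 := Nat.mul_dvd_mul hdvd dvd_rfl
      rw [Nat.div_mul_cancel hp.2.1] at h1
      rw [mul_right_comm]
      exact h1
    · rw [H443.oldMap_apply, hgd, heckeDiag_smul_smul563 hd hp.1.ne_zero]
  exact hmap (Submodule.mem_map_of_mem hg)

/-- The sum of the maps `B_p`, `p ∣ C`. -/
noncomputable def oldSum563 (C : ℕ) :
    ((p : C.primeFactors) → CuspForm (Gamma0 (C / p.1)) 2) →ₗ[ℂ] CuspForm (Gamma0 C) 2 :=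
  ∑ p : C.primeFactors, (H443.oldMap C p).comp (LinearMap.proj p)

theorem oldSum563_apply (C : ℕ) (v : (p : C.primeFactors) → CuspForm (Gamma0 (C / p.1)) 2) :
    oldSum563 C v = ∑ p : C.primeFactors, H443.oldMap C p (v p) := by
  simp [oldSum563, LinearMap.sum_apply]

/-- The diagonal action of `T_l` on the source of the old space. -/
noncomputable def oldSrcT563 (C : ℕ) {l : ℕ} (hl : l.Prime) (hlC : ¬ l ∣ C) :
    Module.End ℂ ((p : C.primeFactors) → CuspForm (Gamma0 (C / p.1)) 2) :=
  LinearMap.pi fun p =>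
    (CuspForm.heckeTLin 2 hl (fun hd => hlC (hd.trans (H443.div_dvd_of_mem C p)))).comp (LinearMap.proj p)

theorem oldSrcT563_apply (C : ℕ) {l : ℕ} (hl : l.Prime) (hlC : ¬ l ∣ C)
    (v : (p : C.primeFactors) → CuspForm (Gamma0 (C / p.1)) 2) (p : C.primeFactors) :
    oldSrcT563 C hl hlC v p =
      CuspForm.heckeTLin 2 hl (fun hd => hlC (hd.trans (H443.div_dvd_of_mem C p))) (v p) := rfl

/-- A form with vanishing coefficients prime to the level is in the range of `oldSum563`. -/
theorem exists_oldSum563_eq (C : ℕ) [NeZero C] (h : CuspForm (Gamma0 C) 2)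
    (hh : ∀ n : ℕ, n.Coprime C → qCoeff h n = 0) :
    ∃ v : (p : C.primeFactors) → CuspForm (Gamma0 (C / p.1)) 2, oldSum563 C v = h := by
  obtain ⟨g, hg⟩ := Fermat.Agent.Lib.Newform.H803.mainLemma C 2 h hh
  refine ⟨fun p => g p.1, ?_⟩
  rw [oldSum563_apply]
  apply DFunLike.coe_injective
  funext τ
  have h1 : (⇑(∑ p : C.primeFactors, H443.oldMap C p (g p.1)) : ℍ → ℂ) τ =
      ∑ p : C.primeFactors, (H443.oldMap C p (g p.1)) τ := by
    have hgen : ∀ s : Finset C.primeFactors,
        (⇑(∑ p ∈ s, H443.oldMap C p (g p.1)) : ℍ → ℂ) τ =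
          ∑ p ∈ s, (H443.oldMap C p (g p.1)) τ := by
      intro s
      classical
      induction s using Finset.induction_on with
      | empty => simp
      | insert a s ha ih =>
        rw [Finset.sum_insert ha, Finset.sum_insert ha, FunLike.coe_add, Pi.add_apply, ih]
    exact hgen Finset.univ
  rw [h1, hg τ, ← Finset.sum_coe_sort C.primeFactors
    (fun p => (g p) (ModularForm.heckeDiagMatrix p • τ))]
  exact Finset.sum_congr rfl (fun p _ => H443.oldMap_apply C p (g p.1) τ)

variable [NeZero N₀]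

/-- **Structure of the good eigenspaces.** -/
theorem struct563 (hf₀ : f₀.IsNewform) (S' : Finset ℕ) (a : ℕ → ℂ)
    (ha : ∀ l : ℕ, l.Prime → l ∉ S' → qCoeff f₀ l = a l) :
    ∀ (C : ℕ) (hC0 : C ≠ 0), (∀ p : ℕ, p.Prime → p ∣ C → p ∈ S') →
      ∀ h : CuspForm (Gamma0 C) 2,
        (∀ (l : ℕ) (hl : l.Prime) (hlC : ¬ l ∣ C), l ∉ S' → CuspForm.heckeTLin 2 hl hlC h = a l • h) →
        h ∈ oldSpan563 f₀ C := by
  intro C
  induction C using Nat.strong_induction_on with
  | _ C ih =>
    intro hC0 hCS h hh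
    haveI : NeZero C := ⟨hC0⟩
    have hgoodC : ∀ l : ℕ, l.Prime → l ∉ S' → ¬ l ∣ C := fun l hl hlS hd => hlS (hCS l hl hd)
    by_cases hdvd : N₀ ∣ C
    · -- the form `f₀` at level `C`
      have h1dvd : 1 * N₀ ∣ C := by rwa [one_mul]
      set f₀C : CuspForm (Gamma0 C) 2 := H863.raiseLin (d := 1) h1dvd f₀ with hf₀C
      have hf₀Cmem : f₀C ∈ oldSpan563 f₀ C :=
        Submodule.subset_span ⟨1, one_ne_zero, h1dvd, fun τ => H863.raiseLin_apply h1dvd f₀ τ⟩
      have hf₀Ceig : ∀ (l : ℕ) (hl : l.Prime) (hlC : ¬ l ∣ C), l ∉ S' →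
          CuspForm.heckeTLin 2 hl hlC f₀C = a l • f₀C := by
        intro l hl hlC hlS
        rw [hf₀C, H443.heckeTLin_raiseLin h1dvd hl hlC f₀,
          H683.heckeTLin_eq_of_eigenform hf₀.1 hl, map_smul, ha l hl hlS]
      have hf₀C1 : qCoeff f₀C 1 = 1 := by
        rw [hf₀C, H863.qCoeff_raiseLin h1dvd f₀ 1, if_pos (dvd_refl 1), Nat.div_one]
        exact hf₀.1.qCoeff_one
      -- `h' = h - a₁(h) f₀`
      set h' : CuspForm (Gamma0 C) 2 := h - qCoeff h 1 • f₀C with hh'
      have hh'eig : ∀ (l : ℕ) (hl : l.Prime) (hlC : ¬ l ∣ C), l ∉ S' →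
          CuspForm.heckeTLin 2 hl hlC h' = a l • h' := by
        intro l hl hlC hlS
        rw [hh', map_sub, map_smul, hh l hl hlC hlS, hf₀Ceig l hl hlC hlS, smul_sub,
          smul_comm]
      have hh'1 : qCoeff h' 1 = 0 := by
        have := (H683.coeffLin C 2 1).map_sub h (qCoeff h 1 • f₀C)
        rw [map_smul] at this
        simp only [H683.coeffLin_apply, smul_eq_mul] at this
        rw [hh', this, hf₀C1, mul_one, sub_self]
      -- vanishing of the good coefficients
      have hvan : ∀ n : ℕ, (∀ l : ℕ, l.Prime → l ∣ n → l ∉ S') → qCoeff h' n = 0 := by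
        refine qCoeff_eq_zero_of_good563 h' a (fun l => l ∉ S') ?_ hh'1
        intro l hl hlS
        have := congrArg (fun F : CuspForm (Gamma0 C) 2 => (⇑F : ℍ → ℂ))
          (hh'eig l hl (hgoodC l hl hlS) hlS)
        simpa [CuspForm.coe_heckeTLin_apply] using this
      classical
      set D : ℕ := ∏ p ∈ S'.filter Nat.Prime, p with hD
      have hDpos : 0 < D := by
        rw [hD]
        exact Finset.prod_pos (fun p hp => (Finset.mem_filter.mp hp).2.pos)
      have hvanD : ∀ n : ℕ, n.Coprime D → qCoeff h' n = 0 := by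
        intro n hn
        apply hvan
        intro l hl hln hlS
        have hlD : l ∣ D := by
          rw [hD]
          exact Finset.dvd_prod_of_mem _ (Finset.mem_filter.mpr ⟨hlS, hl⟩)
        have := Nat.dvd_gcd hln hlD
        rw [hn] at this
        exact hl.one_lt.ne' (Nat.dvd_one.mp this)
      have hcop := H743.qCoeff_eq_zero_of_coprime_level 2 C D hDpos h' hvanD
      obtain ⟨v, hv⟩ := exists_oldSum563_eq C h' hcop
      -- lifting
      have hM0 : ∀ p : C.primeFactors, NeZero (C / p.1) := fun p =>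
        ⟨fun h0 => hC0 (Nat.eq_zero_of_zero_dvd (h0 ▸ H443.div_dvd_of_mem C p))⟩
      have hfd : ∀ p : C.primeFactors, FiniteDimensional ℂ (CuspForm (Gamma0 (C / p.1)) 2) :=
        fun p =>
          haveI := hM0 p
          H683.finiteDimensional_cuspForm (C / p.1) 2
      let J : Type := {l : ℕ // l.Prime ∧ l ∉ S'}
      let Sop : J → Module.End ℂ ((p : C.primeFactors) → CuspForm (Gamma0 (C / p.1)) 2) :=
        fun j => oldSrcT563 C j.2.1 (hgoodC j.1 j.2.1 j.2.2)
      let Top : J → Module.End ℂ (CuspForm (Gamma0 C) 2) :=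
        fun j => CuspForm.heckeTLin 2 j.2.1 (hgoodC j.1 j.2.1 j.2.2)
      have hcomm : ∀ i j, Commute (Sop i) (Sop j) := by
        intro i j
        apply LinearMap.ext
        intro w
        funext p
        have := congrArg (fun F : Module.End ℂ (CuspForm (Gamma0 (C / p.1)) 2) => F (w p))
          (CuspForm.heckeTLin_comm 2 i.2.1
            (fun hd => hgoodC i.1 i.2.1 i.2.2 (hd.trans (H443.div_dvd_of_mem C p)))
            j.2.1 (fun hd => hgoodC j.1 j.2.1 j.2.2 (hd.trans (H443.div_dvd_of_mem C p))))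
        simpa [Sop, oldSrcT563_apply, Module.End.mul_apply] using this
      have hequiv : ∀ j w, oldSum563 C (Sop j w) = Top j (oldSum563 C w) := by
        intro j w
        rw [oldSum563_apply, oldSum563_apply, map_sum]
        refine Finset.sum_congr rfl (fun p _ => ?_)
        show H443.oldMap C p (CuspForm.heckeTLin 2 j.2.1
            (fun hd => hgoodC j.1 j.2.1 j.2.2 (hd.trans (H443.div_dvd_of_mem C p))) (w p)) =
          CuspForm.heckeTLin 2 j.2.1 (hgoodC j.1 j.2.1 j.2.2) (H443.oldMap C p (w p))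
        exact H443.heckeTLin_oldMap C p j.2.1 (hgoodC j.1 j.2.1 j.2.2) (w p)
      have hss : ∀ j w, Sop j (Sop j w - a j.1 • w) = a j.1 • (Sop j w - a j.1 • w) →
          Sop j w = a j.1 • w := by
        intro j w hw
        funext p
        haveI := hM0 p
        have hlp : ¬ j.1 ∣ C / p.1 :=
          fun hd => hgoodC j.1 j.2.1 j.2.2 (hd.trans (H443.div_dvd_of_mem C p))
        have hp : CuspForm.heckeTLin 2 j.2.1 hlp
            (CuspForm.heckeTLin 2 j.2.1 hlp (w p) - a j.1 • w p) =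
            a j.1 • (CuspForm.heckeTLin 2 j.2.1 hlp (w p) - a j.1 • w p) := congrFun hw p
        exact heckeTLin_semisimple563 j.1 j.2.1 hlp (a j.1) (w p) hp
      have hveig : ∀ j, Top j (oldSum563 C v) = a j.1 • oldSum563 C v := by
        intro j
        rw [hv]
        exact hh'eig j.1 j.2.1 _ j.2.2
      have := hfd
      obtain ⟨e, heig, hΦe⟩ := oldLift_core563 Sop Top (oldSum563 C) hcomm hequiv
        (fun j => a j.1) hss v hveig
      -- induction hypothesis
      have hemem : ∀ p : C.primeFactors, e p ∈ oldSpan563 f₀ (C / p.1) := by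
        intro p
        have hp := Nat.mem_primeFactors.mp p.2
        refine ih (C / p.1) (Nat.div_lt_self (Nat.pos_of_ne_zero hC0) hp.1.one_lt)
          (hM0 p).ne (fun r hr hrd => hCS r hr (hrd.trans (H443.div_dvd_of_mem C p))) (e p) ?_
        intro l hl hlC hlS
        exact congrFun (heig ⟨l, hl, hlS⟩) p
      have hh'mem : h' ∈ oldSpan563 f₀ C := by
        rw [← hv, ← hΦe, oldSum563_apply]
        exact Submodule.sum_mem _ (fun p _ => oldMap_mem_oldSpan563 f₀ C p (e p) (hemem p))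
      have : h = h' + qCoeff h 1 • f₀C := by rw [hh']; abel
      rw [this]
      exact Submodule.add_mem _ hh'mem (Submodule.smul_mem _ _ hf₀Cmem)
    · -- no form at all
      by_contra hne
      have hh0 : h ≠ 0 := by
        rintro rfl
        exact hne (Submodule.zero_mem _)
      obtain ⟨g, hg, hgl⟩ := H863.exists_normalizedEigenform_of_eigenvector (S' : Set ℕ) a h hh0
        (fun l hl hlC hlS => hh l hl hlC (by simpa using hlS))
      exact hdvd (H958.X.crossLevel N₀ C f₀ g hf₀ hg S' (fun l hl hlS =>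
        (ha l hl hlS).trans (hgl l hl (hgoodC l hl hlS) (by simpa using hlS)).symm))

end Struct

end Fermat.Agent.S59.H563
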