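import Fermat.Agent.S59.H563.OldSpec
import Fermat.Agent.S59.H563.OldStruct
import Fermat.Agent.Lib.Newform.H958.Final

/-!
# NM-OLD, forms side (helper563): `OldFormsStatement`

An eigenform of level `N q²` away from `S ∪ {q}` whose system of eigenvalues occurs in level `N`
(away from `S ⊇ primes(N)`, `q ∉ S`) is `h₁(τ) + h₂(q τ) + h₃(q² τ)` with eigenforms `h_i` of
level `N` away from `S`.
-/

set_option autoImplicit false

open CongruenceSubgroup ModularFormClass ModularForm UpperHalfPlane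

namespace Fermat.Agent.S59.H563

open Fermat.Agent.Lib.Newform

section

variable {N₀ : ℕ} [NeZero N₀] (f₀ : CuspForm (Gamma0 N₀) 2)

/-- The raised forms `f₀(d τ)` of level `N` are good eigenvectors. -/
theorem raise_eigen563 (hf₀ : f₀.IsNormalizedEigenform) (S : Finset ℕ) (a : ℕ → ℂ)
    (ha : ∀ l : ℕ, l.Prime → l ∉ S → qCoeff f₀ l = a l) {N d : ℕ} [NeZero d]
    (hd : d * N₀ ∣ N) (l : ℕ) (hl : l.Prime) (hlN : ¬ l ∣ N) (hlS : l ∉ S) :
    CuspForm.heckeTLin 2 hl hlN (H863.raiseLin hd f₀) = a l • H863.raiseLin hd f₀ := by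
  rw [H443.heckeTLin_raiseLin hd hl hlN f₀, H683.heckeTLin_eq_of_eigenform hf₀ hl, map_smul,
    ha l hl hlS]

end

/-- The forms of level `N q²` of the shape `h₁(τ) + h₂(q τ) + h₃(q² τ)`. -/
def triple563 (N q : ℕ) (S : Finset ℕ) (a : ℕ → ℂ) :
    Submodule ℂ (CuspForm (Gamma0 (N * q * q)) 2) where
  carrier := {F | ∃ h₁ h₂ h₃ : CuspForm (Gamma0 N) 2,
    (∀ (l : ℕ) (hl : l.Prime) (hlN : ¬ l ∣ N), l ∉ S →
      CuspForm.heckeTLin 2 hl hlN h₁ = a l • h₁) ∧
    (∀ (l : ℕ) (hl : l.Prime) (hlN : ¬ l ∣ N), l ∉ S →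
      CuspForm.heckeTLin 2 hl hlN h₂ = a l • h₂) ∧
    (∀ (l : ℕ) (hl : l.Prime) (hlN : ¬ l ∣ N), l ∉ S →
      CuspForm.heckeTLin 2 hl hlN h₃ = a l • h₃) ∧
    ∀ τ : ℍ, F τ = h₁ τ + h₂ (heckeDiagMatrix q • τ) +
      h₃ (heckeDiagMatrix q • (heckeDiagMatrix q • τ))}
  zero_mem' := ⟨0, 0, 0, fun l hl hlN _ => by simp, fun l hl hlN _ => by simp,
    fun l hl hlN _ => by simp, fun τ => by simp⟩
  add_mem' := by
    rintro F F' ⟨h₁, h₂, h₃, e₁, e₂, e₃, hF⟩ ⟨h₁', h₂', h₃', e₁', e₂', e₃', hF'⟩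
    refine ⟨h₁ + h₁', h₂ + h₂', h₃ + h₃', ?_, ?_, ?_, fun τ => ?_⟩
    · intro l hl hlN hlS
      rw [map_add, e₁ l hl hlN hlS, e₁' l hl hlN hlS, smul_add]
    · intro l hl hlN hlS
      rw [map_add, e₂ l hl hlN hlS, e₂' l hl hlN hlS, smul_add]
    · intro l hl hlN hlS
      rw [map_add, e₃ l hl hlN hlS, e₃' l hl hlN hlS, smul_add]
    · simp only [CuspForm.coe_add, Pi.add_apply]
      rw [hF τ, hF' τ]
      ring
  smul_mem' := by
    rintro c F ⟨h₁, h₂, h₃, e₁, e₂, e₃, hF⟩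
    refine ⟨c • h₁, c • h₂, c • h₃, ?_, ?_, ?_, fun τ => ?_⟩
    · intro l hl hlN hlS
      rw [map_smul, e₁ l hl hlN hlS, smul_comm]
    · intro l hl hlN hlS
      rw [map_smul, e₂ l hl hlN hlS, smul_comm]
    · intro l hl hlN hlS
      rw [map_smul, e₃ l hl hlN hlS, smul_comm]
    · simp only [CuspForm.IsGLPos.coe_smul, Pi.smul_apply, smul_eq_mul]
      rw [hF τ]
      ring

/-- **OLD-FORMS.** -/
theorem oldForms563 : OldFormsStatement := by
  intro N q _ _ _ hq hqN S hqS hNS a ⟨G, hG0, hGeig⟩ F hF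
  have hN0 : N ≠ 0 := NeZero.ne N
  have hq0 : q ≠ 0 := hq.ne_zero
  -- the newform
  obtain ⟨g, hg, hgl⟩ := H863.exists_normalizedEigenform_of_eigenvector (S : Set ℕ) a G hG0
    (fun l hl hlN hlS => hGeig l hl hlN (by simpa using hlS))
  obtain ⟨N₀, hN₀N, f₀, hf₀, hf₀g⟩ := H958.descent N g hg
  haveI : NeZero N₀ := ⟨fun h0 => hN0 (Nat.eq_zero_of_zero_dvd (h0 ▸ hN₀N))⟩
  have hgoodN : ∀ l : ℕ, l.Prime → l ∉ S → ¬ l ∣ N := fun l hl hlS hd => hlS (hNS l hl hd)
  have ha : ∀ l : ℕ, l.Prime → l ∉ S → qCoeff f₀ l = a l := by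
    intro l hl hlS
    rw [hf₀g l hl (hgoodN l hl hlS)]
    exact hgl l hl (hgoodN l hl hlS) (by simpa using hlS)
  have ha' : ∀ l : ℕ, l.Prime → l ∉ insert q S → qCoeff f₀ l = a l := fun l hl hlS =>
    ha l hl (fun h => hlS (Finset.mem_insert_of_mem h))
  have hprimes : ∀ p : ℕ, p.Prime → p ∣ N * q * q → p ∈ insert q S := by
    intro p hp hpd
    rcases (Nat.Prime.dvd_mul hp).mp hpd with h1 | h1
    · rcases (Nat.Prime.dvd_mul hp).mp h1 with h2 | h2
      · exact Finset.mem_insert_of_mem (hNS p hp h2)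
      · rw [(Nat.prime_dvd_prime_iff_eq hp hq).mp h2]
        exact Finset.mem_insert_self _ _
    · rw [(Nat.prime_dvd_prime_iff_eq hp hq).mp h1]
      exact Finset.mem_insert_self _ _
  have hmem := struct563 f₀ hf₀ (insert q S) a ha' (N * q * q) (NeZero.ne _) hprimes F hF
  -- the span is contained in the triples
  have hqN₀ : ¬ q ∣ N₀ := fun h => hqN (h.trans hN₀N)
  have hcop : Nat.Coprime q N₀ := (Nat.Prime.coprime_iff_not_dvd hq).mpr hqN₀
  have hle : oldSpan563 f₀ (N * q * q) ≤ triple563 N q S a := by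
    unfold oldSpan563
    apply Submodule.span_le.mpr
    rintro g' ⟨d, hd0, hdvd, hgd⟩
    -- a divisor prime to `q`
    have key : ∀ e : ℕ, e ≠ 0 → ¬ q ∣ e → ∀ m : ℕ, e * N₀ ∣ N * m → (∀ r : ℕ, r.Prime → r ∣ m → r = q) →
        e * N₀ ∣ N := by
      intro e he hqe m hm hmq
      have hc : Nat.Coprime (e * N₀) m := by
        apply Nat.coprime_of_dvd
        intro r hr hre hrm
        have := hmq r hr hrm
        subst this
        rcases (Nat.Prime.dvd_mul hr).mp hre with h1 | h1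
        · exact hqe h1
        · exact hqN₀ h1
      exact hc.dvd_of_dvd_mul_right hm
    by_cases hqd : q ∣ d
    · obtain ⟨d₁, rfl⟩ := hqd
      have hd₁0 : d₁ ≠ 0 := fun h => hd0 (by rw [h, mul_zero])
      have hdvd₁ : d₁ * N₀ ∣ N * q := by
        have : q * (d₁ * N₀) ∣ q * (N * q) := by
          rw [← mul_assoc, show q * (N * q) = N * q * q by ring]
          exact hdvd
        exact (Nat.mul_dvd_mul_iff_left hq.pos).mp this
      by_cases hqd₁ : q ∣ d₁
      · obtain ⟨d₂, rfl⟩ := hqd₁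
        have hd₂0 : d₂ ≠ 0 := fun h => hd₁0 (by rw [h, mul_zero])
        have hdvd₂ : d₂ * N₀ ∣ N := by
          have : q * (d₂ * N₀) ∣ q * N := by
            rw [← mul_assoc, mul_comm q N]
            exact hdvd₁
          exact (Nat.mul_dvd_mul_iff_left hq.pos).mp this
        haveI : NeZero d₂ := ⟨hd₂0⟩
        refine ⟨0, 0, H863.raiseLin hdvd₂ f₀, fun l hl hlN _ => by simp,
          fun l hl hlN _ => by simp,
          fun l hl hlN hlS => raise_eigen563 f₀ hf₀.1 S a ha hdvd₂ l hl hlN hlS, fun τ => ?_⟩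
        rw [hgd τ, H863.raiseLin_apply hdvd₂ f₀, heckeDiag_smul_smul563 hd₂0 hq0,
          heckeDiag_smul_smul563 (Nat.mul_ne_zero hd₂0 hq0) hq0]
        simp only [CuspForm.coe_zero, Pi.zero_apply, zero_add]
        congr 2
        ring_nf
      · have hdvd₂ : d₁ * N₀ ∣ N := key d₁ hd₁0 hqd₁ q hdvd₁
          (fun r hr hrq => (Nat.prime_dvd_prime_iff_eq hr hq).mp hrq)
        haveI : NeZero d₁ := ⟨hd₁0⟩
        refine ⟨0, H863.raiseLin hdvd₂ f₀, 0, fun l hl hlN _ => by simp,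
          fun l hl hlN hlS => raise_eigen563 f₀ hf₀.1 S a ha hdvd₂ l hl hlN hlS,
          fun l hl hlN _ => by simp, fun τ => ?_⟩
        rw [hgd τ, H863.raiseLin_apply hdvd₂ f₀, heckeDiag_smul_smul563 hd₁0 hq0]
        simp only [CuspForm.coe_zero, Pi.zero_apply, zero_add, add_zero]
        congr 2
        ring_nf
    · have hdvd₂ : d * N₀ ∣ N := key d hd0 hqd (q * q) (by rwa [← mul_assoc])
        (fun r hr hrq => by
          rcases (Nat.Prime.dvd_mul hr).mp hrq with h | h <;>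
            exact (Nat.prime_dvd_prime_iff_eq hr hq).mp h)
      haveI : NeZero d := ⟨hd0⟩
      refine ⟨H863.raiseLin hdvd₂ f₀, 0, 0,
        fun l hl hlN hlS => raise_eigen563 f₀ hf₀.1 S a ha hdvd₂ l hl hlN hlS,
        fun l hl hlN _ => by simp, fun l hl hlN _ => by simp, fun τ => ?_⟩
      rw [hgd τ, H863.raiseLin_apply hdvd₂ f₀]
      simp only [CuspForm.coe_zero, Pi.zero_apply, add_zero]
  exact hle hmem

end Fermat.Agent.S59.H563
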