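import Fermat.Agent.S31.H862.Reduced

/-!
# NM-OLD, leaf SS (helper563): `T_l` is semisimple on `S₂(Γ₀(N))`

`heckeTLin_semisimple563`: `(T_l - c)² h = 0 ⇒ (T_l - c) h = 0`, from the self-adjointness of
`T_l` for the Petersson product (`S31/H862`).
-/

set_option autoImplicit false

open UpperHalfPlane CongruenceSubgroup MeasureTheory
open scoped MatrixGroups ModularForm ComplexConjugate

namespace Fermat.Agent.S59.H563

open Fermat.Agent.S31.H862

variable {N : ℕ} [NeZero N]

omit [NeZero N] in
theorem petC_smul_right563 (c : ℂ) (f g : CuspForm (Gamma0 N) 2) :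
    petC f (c • g) = c * petC f g := by
  unfold petC pet pint
  rw [← integral_const_mul]
  refine integral_congr_ae (Filter.Eventually.of_forall fun z => ?_)
  have h1 : ((c • g : CuspForm (Gamma0 N) 2) : ℍ → ℂ) z = c * g z := by
    simp
  simp only [petersson, h1]
  ring

theorem petC_smul_left563 (c : ℂ) (f g : CuspForm (Gamma0 N) 2) :
    petC (c • f) g = conj c * petC f g := by
  rw [← petC_conj g (c • f), petC_smul_right563, map_mul, petC_conj]

theorem petC_sub_right563 (f g₁ g₂ : CuspForm (Gamma0 N) 2) :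
    petC f (g₁ - g₂) = petC f g₁ - petC f g₂ := by
  have h : g₁ - g₂ = g₁ + (-1 : ℂ) • g₂ := by
    rw [neg_one_smul, sub_eq_add_neg]
  rw [h, petC_add_right, petC_smul_right563]
  ring

/-- **OLD-SS.** -/
theorem heckeTLin_semisimple563 (l : ℕ) (hl : l.Prime) (hlN : ¬ l ∣ N) (c : ℂ)
    (h : CuspForm (Gamma0 N) 2)
    (hh : CuspForm.heckeTLin 2 hl hlN (CuspForm.heckeTLin 2 hl hlN h - c • h) =
      c • (CuspForm.heckeTLin 2 hl hlN h - c • h)) :
    CuspForm.heckeTLin 2 hl hlN h = c • h := by
  set T := CuspForm.heckeTLin (N := N) 2 hl hlN with hT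
  set h' := T h - c • h with hh'
  have hSA : ∀ f g : CuspForm (Gamma0 N) 2, petC (T f) g = petC f (T g) :=
    isSA_heckeTLin hl hlN
  by_contra hne
  have hne' : h' ≠ 0 := fun h0 => hne (sub_eq_zero.mp h0)
  have hpos : petC h' h' ≠ 0 := fun h0 => hne' (eq_zero_of_petC_self h' h0)
  -- `c` is real
  have h1 : petC (T h') h' = conj c * petC h' h' := by rw [hh, petC_smul_left563]
  have h2 : petC h' (T h') = c * petC h' h' := by rw [hh, petC_smul_right563]
  have hc : conj c = c := by
    have := hSA h' h'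
    rw [h1, h2] at this
    exact mul_right_cancel₀ hpos this
  -- `⟨h', h'⟩ = 0`
  apply hpos
  have h3 : petC h' h' = petC h' (T h) - c * petC h' h := by
    conv_lhs => rw [hh']
    rw [petC_sub_right563, petC_smul_right563]
  rw [h3, ← hSA h' h, hh, petC_smul_left563, hc, sub_self]

end Fermat.Agent.S59.H563
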