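import Fermat.Agent.S59.NM.Spec
import Fermat.Prelude.Def_ModularCurve_PeriodHomPair
import Fermat.Prelude.Def_ModularForm_HeckeOperatorForms

/-!
# Row S59, cell NM, leaf NM-OLD (`NM.OldStatement`) — frozen sub-interface (helper563)

Route (memo in the notes table, stmt S59, kind `spec`, seat helper563):

* `OldDescentStatement`  : `K → ℂ` (countable subfield, embedding into `ℂ`, linear retraction);
* `OldPeriodStatement`, `OldInvolutionStatement` : the period map and the involution `ι` are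
  compatible with the degeneracy maps `r₁, r₂` (Eichler–Shimura transport);
* `OldSSStatement`       : `T_l` is semisimple on `S₂(Γ₀(N))` (Petersson, `S31/H862`);
* `OldLiftStatement`     : linear algebra — eigenvectors lift along an equivariant map when the
  source is semisimple at the eigenvalue;
* `OldFormsStatement`    : Atkin–Lehner–Li on forms (`Lib/Newform`): an eigenform of level
  `N q²` away from `S ∪ {q}` whose system occurs in level `N` is `h₁(τ) + h₂(qτ) + h₃(q²τ)`.

Only definitions here.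
-/

set_option autoImplicit false

open CongruenceSubgroup ModularCurve ModularCurve.Period
open scoped MatrixGroups

namespace Fermat.Agent.S59.H563

open Fermat.Agent.S59.NM Fermat.Agent.S41.Spec Fermat.Agent.S29.H642

/-- **OLD over `ℂ`**: `NM.OldStatement` for `K = ℂ`. -/
def OldCStatement : Prop :=
  ∀ (N q : ℕ), N ≠ 0 → q.Prime → ¬ q ∣ N →
    ∀ (S : Finset ℕ), q ∉ S → (∀ r : ℕ, r.Prime → r ∣ N → r ∈ S) →
    ∀ (a : ℕ → ℂ),
      (∃ x : Additive (Gamma0 N) →+ ℂ, x ≠ 0 ∧ IsEigenclass N S a x) →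
      ∀ y : Additive (Gamma0 (N * q * q)) →+ ℂ, IsEigenclass (N * q * q) (insert q S) a y →
        ∃ z₁ z₂ z₃ : Additive (Gamma0 N) →+ ℂ,
          IsEigenclass N S a z₁ ∧ IsEigenclass N S a z₂ ∧ IsEigenclass N S a z₃ ∧
          y = P₁ N q z₁ + P₂ N q z₂ + P₃ N q z₃

/-- **OLD-DESCENT**: the statement over `ℂ` implies the statement over every field of
characteristic `0`.  (Take the countable subfield `K₀ ⊆ K` generated by the values of `y` and the
`a l`; replace `x` by `λ ∘ x`, `λ : K → K₀` a `K₀`-linear retraction with `λ ∘ x ≠ 0`... or enlarge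
`K₀` by the values of `x`; embed `K₀ ↪ ℂ`; apply the statement over `ℂ`; compose the `z_i` with a
`K₀`-linear retraction `ℂ → K₀`.  All operators commute with post-composition by additive maps:
`H642.heckeTransfer_comp`, HK-0.) -/
def OldDescentStatement : Prop := OldCStatement → OldStatement

/-- **OLD-PER**: the period map is compatible with the two degeneracy maps:
`P(f at level N q) = r₁ P(f)` and `q • P(f(q τ)) = r₂ P(f)`. -/
def OldPeriodStatement : Prop :=
  ∀ (N q : ℕ) [NeZero N] [NeZero q] (f : CuspForm (Gamma0 N) 2)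
    (g : CuspForm (Gamma0 (N * q)) 2),
    ((∀ τ : UpperHalfPlane, g τ = f τ) →
      periodMap (N * q) g = r₁ N q (periodMap N f)) ∧
    ((∀ τ : UpperHalfPlane, g τ = f (ModularForm.heckeDiagMatrix q • τ)) →
      (q : ℂ) • periodMap (N * q) g = r₂ N q (periodMap N f))

/-- **OLD-INV**: the involution `ι` (conjugation by `diag(1, -1)`) commutes with `r₁, r₂`. -/
def OldInvolutionStatement : Prop :=
  ∀ (N q : ℕ) (φ : Additive (Gamma0 N) →+ ℂ),
    charInvolution (N * q) ℂ ℂ (r₁ N q φ) = r₁ N q (charInvolution N ℂ ℂ φ) ∧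
    charInvolution (N * q) ℂ ℂ (r₂ N q φ) = r₂ N q (charInvolution N ℂ ℂ φ)

/-- **OLD-SS**: `T_l` (`l ∤ N`) is semisimple on `S₂(Γ₀(N))`: `(T_l - c)² h = 0 ⇒ (T_l - c) h = 0`.
(Self-adjointness for the Petersson product: `Fermat.Agent.S31.H862.isSA_heckeTLin`,
`eq_zero_of_petC_self`, `petC_conj`.) -/
def OldSSStatement : Prop :=
  ∀ (N : ℕ) [NeZero N] (l : ℕ) (hl : l.Prime) (hlN : ¬ l ∣ N) (c : ℂ)
    (h : CuspForm (Gamma0 N) 2),
    CuspForm.heckeTLin 2 hl hlN (CuspForm.heckeTLin 2 hl hlN h - c • h) =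
      c • (CuspForm.heckeTLin 2 hl hlN h - c • h) →
    CuspForm.heckeTLin 2 hl hlN h = c • h

/-- **OLD-LIFT** (linear algebra): `S j` commuting endomorphisms of a finite-dimensional space
`V`, semisimple at the eigenvalues `a j`; `Φ : V → W` equivariant.  If `Φ v` is an eigenvector of
the `T j` with eigenvalues `a j`, then `Φ v = Φ e` for an eigenvector `e` of the `S j`. -/
def OldLiftStatement : Prop :=
  ∀ (V W : Type) [AddCommGroup V] [Module ℂ V] [FiniteDimensional ℂ V]
    [AddCommGroup W] [Module ℂ W] (J : Type)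
    (S : J → Module.End ℂ V) (T : J → Module.End ℂ W) (Φ : V →ₗ[ℂ] W),
    (∀ i j, Commute (S i) (S j)) → (∀ j v, Φ (S j v) = T j (Φ v)) →
    ∀ a : J → ℂ,
      (∀ j v, S j (S j v - a j • v) = a j • (S j v - a j • v) → S j v = a j • v) →
      ∀ v : V, (∀ j, T j (Φ v) = a j • Φ v) →
        ∃ e : V, (∀ j, S j e = a j • e) ∧ Φ e = Φ v

/-- **OLD-FORMS** (Atkin–Lehner–Li): forms side of `OldCStatement`. -/
def OldFormsStatement : Prop :=
  ∀ (N q : ℕ) [NeZero N] [NeZero q] [NeZero (N * q * q)], q.Prime → ¬ q ∣ N →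
    ∀ (S : Finset ℕ), q ∉ S → (∀ r : ℕ, r.Prime → r ∣ N → r ∈ S) →
    ∀ (a : ℕ → ℂ),
      (∃ G : CuspForm (Gamma0 N) 2, G ≠ 0 ∧
        ∀ (l : ℕ) (hl : l.Prime) (hlN : ¬ l ∣ N), l ∉ S →
          CuspForm.heckeTLin 2 hl hlN G = a l • G) →
      ∀ F : CuspForm (Gamma0 (N * q * q)) 2,
        (∀ (l : ℕ) (hl : l.Prime) (hlN : ¬ l ∣ N * q * q), l ∉ insert q S →
          CuspForm.heckeTLin 2 hl hlN F = a l • F) →
        ∃ h₁ h₂ h₃ : CuspForm (Gamma0 N) 2,
          (∀ (l : ℕ) (hl : l.Prime) (hlN : ¬ l ∣ N), l ∉ S →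
            CuspForm.heckeTLin 2 hl hlN h₁ = a l • h₁) ∧
          (∀ (l : ℕ) (hl : l.Prime) (hlN : ¬ l ∣ N), l ∉ S →
            CuspForm.heckeTLin 2 hl hlN h₂ = a l • h₂) ∧
          (∀ (l : ℕ) (hl : l.Prime) (hlN : ¬ l ∣ N), l ∉ S →
            CuspForm.heckeTLin 2 hl hlN h₃ = a l • h₃) ∧
          ∀ τ : UpperHalfPlane, F τ = h₁ τ + h₂ (ModularForm.heckeDiagMatrix q • τ) +
            h₃ (ModularForm.heckeDiagMatrix q • (ModularForm.heckeDiagMatrix q • τ))

end Fermat.Agent.S59.H563
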